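import Fermat.Agent.Extra38.Tres
import Fermat.Agent.RT.LowerQ.PatchOrd
import Fermat.Agent.RT.MazurP.Endgame.LiftingInput
import Fermat.Agent.SwitchLocal.Good3
import Fermat.Agent.Top.Discharged

/-!
# Lowering at an unramified prime for a semistable curve, at every odd `p`

If `p` does not divide the level, or divides it and the curve is multiplicative and très ramifiée
at `p`, the prime is removed directly. Otherwise the curve, or for `p = 3` a congruent curve with
good reduction at `3`, is modular, which gives a level prime to `p`; removing its unramified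
primes leaves a divisor of `M / q`.
-/

set_option autoImplicit false
set_option linter.style.haveILetI false

noncomputable section

namespace Fermat.Agent.Extra38

open IsLocalRing Module
open Fermat.Agent.Deform Fermat.Agent.Arith Fermat.Agent.RT.Assembly Fermat.Agent.RT.LowerQ
open Fermat.Agent.RT.Lifting (ordCond IsDistinguishedOrdinary)

variable {p : ℕ} [Fact p.Prime] {E : WeierstrassCurve ℤ}

/-- The ordinary condition at a level divisible by an odd `p`. -/
theorem localInputs_ord_odd {hΔ : E.Δ ≠ 0} (hp2 : p ≠ 2) (hss : E.IsSemistableModel)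
    (hirr : E.ModRepIsIrreducible p) {M : ℕ} (hpM : p ∣ M) (hlev : LevelAtP E p M) :
    LocalInputs p E hΔ M := by
  intro O _ _ _ _ _ _ _ W bb hpO hW hsplit
  have hp : p.Prime := Fact.out
  obtain ⟨hbad, hv⟩ := hlev hpM
  have habs : (curveRho E p (ResidueField O) hΔ).IsAbsolutelyIrreducible :=
    isAbsolutelyIrreducible_curveRho hΔ hp2 hirr
  let b := Module.finBasisOfFinrankEq (ZMod p) _ (EC.Rep.residualRep E p hΔ).finrank_eq
  obtain ⟨bb', hbb'⟩ := exists_matRes_curveRho (k := ResidueField O) (hΔ := hΔ) b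
  obtain ⟨W', hW'⟩ := exists_rigid _ habs bb'
  have hE : RT.Lifting.IsResidualOf E hΔ p W' := ⟨b, fun σ i j => by
    rw [hW', hbb', mapM_apply]⟩
  have hdist : IsDistinguishedOrdinary p (curveRho E p (ResidueField O) hΔ) :=
    RT.Lifting.isDistinguishedOrdinary_of_multiplicative hW' hE hss hp2 hbad
  have hC : RT.Lifting.IsPairCond (curveRho E p (ResidueField O) hΔ) (ordCond (O := O) p) :=
    RT.Lifting.isPairCond_ord hdist.2
  refine ⟨ordCond p, hC.toIsLocalCond,
    condAtPInput_of_pointCond hpO habs _ (models p) hC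
      (RT.Lifting.pointCond_ord hp hp2 habs hdist (RT.Lifting.AtP.unitRootProperty p)
        fun A N _ hA h4 hN => ?_)
      (fun _ h => h) M (curveSet E p M),
    localPBound_ord hW hp2 (fun σ n hn => by rw [hW]; exact det_matRes_curveRho bb σ n hn)
      (isTresRamified_of_multiplicative hp2 hss hbad
        (fun h => hv (Int.natCast_dvd_natCast.mp h)) hW' hE)⟩
  haveI : NeZero N := ⟨fun h => NeZero.ne (p * N) (by rw [h, mul_zero])⟩
  exact OrdinaryAtP.noTrivialQuotient hp2 hA h4 hN

/-- The patching step at every odd `p`. -/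
theorem scalarDrop_odd (hp2 : p ≠ 2) : ScalarDropProperty p :=
  scalarDropProperty_of_selmer hp2 (fun k _ _ _ => selmerBound p k)
    fun _ _ hss hirr _ _ hpM hlev => localInputs_ord_odd hp2 hss hirr hpM hlev

/-- Lowering when `p` does not divide the level. -/
theorem lower_of_not_dvd (hp2 : p ≠ 2) (hΔ : E.Δ ≠ 0) (hss : E.IsSemistableModel)
    (hirr : E.ModRepIsIrreducible p) {M q : ℕ} (hq : q.Prime) (hqp : q ≠ p) (hqM : q ∣ M)
    (hM : Squarefree M) (hpM : ¬ p ∣ M) (hunr : (EC.Rep.residualRep E p hΔ).IsUnramifiedAt q)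
    (h : E.IsResiduallyModularOfLevel p M) : E.IsResiduallyModularOfLevel p (M / q) :=
  modular_div_of_minimal (mazurStep hp2) hΔ hss hirr (good := fun M => ¬ p ∣ M)
    (fun _ _ hd h h' => h (h'.trans hd)) (dropAt_flat hp2 E hΔ hss hirr) M q hq hqp hqM hM hpM
    hunr h

/-- A level prime to `p` can be shrunk to ramified primes only. -/
theorem exists_minimal_level (hp2 : p ≠ 2) (hΔ : E.Δ ≠ 0) (hss : E.IsSemistableModel)
    (hirr : E.ModRepIsIrreducible p) :
    ∀ L : ℕ, Squarefree L → ¬ p ∣ L → E.IsResiduallyModularOfLevel p L →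
      ∃ L' : ℕ, L' ∣ L ∧ E.IsResiduallyModularOfLevel p L' ∧
        ∀ v : ℕ, v.Prime → v ∣ L' → ¬ (EC.Rep.residualRep E p hΔ).IsUnramifiedAt v := by
  intro L
  induction L using Nat.strong_induction_on with
  | _ L ih =>
    intro hL hpL hmod
    by_cases hall : ∀ v : ℕ, v.Prime → v ∣ L → ¬ (EC.Rep.residualRep E p hΔ).IsUnramifiedAt v
    · exact ⟨L, dvd_rfl, hmod, hall⟩
    simp only [not_forall, not_not] at hall
    obtain ⟨v, hv, hvL, hvu⟩ := hall
    have hd : L / v ∣ L := Nat.div_dvd_of_dvd hvL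
    obtain ⟨L', h1, h2, h3⟩ := ih (L / v)
      (Nat.div_lt_self (Nat.pos_of_ne_zero hL.ne_zero) hv.one_lt) (hL.squarefree_of_dvd hd)
      (fun h => hpL (h.trans hd))
      (lower_of_not_dvd hp2 hΔ hss hirr hv (fun e => hpL (e ▸ hvL)) hvL hL hpL hvu hmod)
    exact ⟨L', h1.trans hd, h2, h3⟩

/-- A level prime to `p`, when the representation is not très ramifiée at `p`. -/
theorem exists_level_prime_to (hp2 : p ≠ 2) (hΔ : E.Δ ≠ 0) (hss : E.IsSemistableModel)
    (hirr : E.ModRepIsIrreducible p)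
    (hfin : (p : ℤ) ∣ E.Δ → p ∣ padicValInt p E.Δ) :
    ∃ L : ℕ, Squarefree L ∧ ¬ p ∣ L ∧ E.IsResiduallyModularOfLevel p L := by
  have hp : p.Prime := Fact.out
  have hex : ∀ V : WeierstrassCurve ℤ, V.Δ ≠ 0 → V.IsSemistableModel →
      Mlc1IsModularModelOfExactConductorLevel V := fun V h1 h2 =>
    Top.exact_of_lifting Top.liftingSquarefreeInput V h1 h2
  have hrefl : Top.Congruent p E E := fun ℓ _ _ _ _ => by rw [sub_self]; exact dvd_zero _
  by_cases hgood : (p : ℤ) ∣ E.Δ
  swap
  · obtain ⟨N, -, hsq, hsupp, hres⟩ :=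
      Top.isResiduallyModular_of_congruent hp hrefl (hex E hΔ hss)
    exact ⟨N, hsq, fun h => hgood (hsupp.1 h), hres⟩
  by_cases hp3 : p = 3
  · subst hp3
    obtain ⟨E', hΔ', hss', hg', hcong⟩ :=
      SwitchLocal.exists_switch_three_good E hΔ hss (by exact_mod_cast hgood) (hfin hgood)
    obtain ⟨N, -, hsq, hsupp, hres⟩ :=
      Top.isResiduallyModular_of_congruent hp hcong (hex E' hΔ' hss')
    exact ⟨N, hsq, fun h => hg' (hsupp.1 h), hres⟩
  · have hp5 : 5 ≤ p := hp.five_le_of_ne_two_of_ne_three hp2 hp3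
    obtain ⟨N, -, hsq, hsupp, hres⟩ :=
      Top.isResiduallyModular_of_congruent hp hrefl (hex E hΔ hss)
    have hpN : p ∣ N := hsupp.2 hgood
    refine ⟨N / p, hsq.squarefree_of_dvd (Nat.div_dvd_of_dvd hpN), fun h => hp.ne_one
      (Nat.isUnit_iff.mp (hsq p (Nat.mul_dvd_of_dvd_div hpN h))), ?_⟩
    exact RT.MazurP.lowerPInput p E hΔ hss hirr hp5 hgood (hfin hgood) N hpN hsq hres

/-- **Lowering at an unramified prime, for every odd `p`.** -/
theorem lower_unramified (hp2 : p ≠ 2) (hΔ : E.Δ ≠ 0) (hss : E.IsSemistableModel)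
    (hirr : E.ModRepIsIrreducible p) {M q : ℕ} (hq : q.Prime) (hqp : q ≠ p) (hqM : q ∣ M)
    (hM : Squarefree M) (hunr : (EC.Rep.residualRep E p hΔ).IsUnramifiedAt q)
    (h : E.IsResiduallyModularOfLevel p M) : E.IsResiduallyModularOfLevel p (M / q) := by
  have hp : p.Prime := Fact.out
  by_cases hlev : LevelAtP E p M
  · exact lowerQInput (mazurStep hp2) (scalarDrop_odd hp2) E hΔ hss hirr M q hq hqp hqM hM hlev
      hunr h
  simp only [LevelAtP, Classical.not_imp, not_and, not_not] at hlev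
  obtain ⟨-, hfin⟩ := hlev
  obtain ⟨L, hL, hpL, hmodL⟩ := exists_level_prime_to hp2 hΔ hss hirr hfin
  obtain ⟨L', hL', hmod', hram⟩ := exists_minimal_level hp2 hΔ hss hirr L hL hpL hmodL
  haveI : NeZero M := ⟨hM.ne_zero⟩
  have hcong := isCongruentLevel_of_isResiduallyModular (k := ZMod p) hΔ h
  have hL'sq : Squarefree L' := hL.squarefree_of_dvd hL'
  have hMq : Squarefree (M / q) := hM.squarefree_of_dvd (Nat.div_dvd_of_dvd hqM)
  refine residuallyModular_of_dvd ?_ hMq hmod'
  rw [← Nat.prod_primeFactors_of_squarefree hL'sq]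
  refine (Finset.prod_dvd_prod_of_subset _ (M / q).primeFactors _ fun v hv => ?_).trans
    (Nat.prod_primeFactors_dvd _)
  have hvp := Nat.prime_of_mem_primeFactors hv
  have hvL := Nat.dvd_of_mem_primeFactors hv
  have hnu := hram v hvp hvL
  have hvM : v ∣ M := by
    by_contra hvM
    refine hnu (isUnramifiedAt_of_congruent (ρbar := EC.Rep.residualRep E p hΔ)
      (fun ℓ hℓ hℓS A hA τ hτ => ?_) (EC.Rep.isAbsolutelyIrreducible_residualRep hΔ hp2 hirr)
      hcong hvp hvM fun e => hpL (e ▸ hvL.trans hL'))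
    simpa [curveAbar] using EC.Rep.charpoly_residualRep_frobenius hΔ hℓ
      (isGoodPrimeFor_of_not_mem_curveSet hΔ hℓ hℓS) (fun e => hℓS (e ▸ self_mem_curveSet)) hA hτ
  refine Nat.mem_primeFactors.mpr ⟨hvp, ?_, hMq.ne_zero⟩
  refine (Nat.Coprime.dvd_of_dvd_mul_left ((Nat.coprime_primes hvp hq).mpr fun e => hnu (e ▸ hunr)) ?_)
  rwa [Nat.mul_div_cancel' hqM]

end Fermat.Agent.Extra38

end
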