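import Fermat.Agent.RT.Lifting.AtP.Tres

/-!
# A multiplicative `p` with `p ∤ v_p (Δ)` is très ramifiée, for every odd `p`

The argument of `RT/Lifting/AtP/Tres` does not use `p ∈ {3, 5}`.
-/

set_option autoImplicit false
set_option linter.style.haveILetI false
set_option synthInstance.maxHeartbeats 400000

noncomputable section

namespace Fermat.Agent.Extra38

open IsLocalRing Module Fermat.Agent.Deform Fermat.Agent.Arith TrivSqZeroExt
open Fermat.Agent.RT Fermat.Agent.RT.Lifting Fermat.Agent.RT.Lifting.AtP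
open scoped Pointwise TensorProduct

set_option maxHeartbeats 1600000 in
/-- The residual representation of a curve multiplicative at an odd `p ∤ v_p (Δ)` is très
ramifiée. -/
theorem isTresRamified_of_multiplicative {p : ℕ} [Fact p.Prime] (hp2 : p ≠ 2)
    {E : WeierstrassCurve ℤ} {hΔ : E.Δ ≠ 0} (hss : E.IsSemistableModel) (hpΔ : (p : ℤ) ∣ E.Δ)
    (hv : ¬ (p : ℤ) ∣ (padicValInt p E.Δ : ℤ))
    {O : Type} [CommRing O] [IsDomain O] [IsDiscreteValuationRing O]
    [IsAdicComplete (maximalIdeal O) O] [Finite (ResidueField O)] [CharZero O]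
    [CharP (ResidueField O) p] {W : Rigid O} {ρbar : ResidualGaloisRep (ResidueField O)}
    {bb : Basis (Fin 2) (ResidueField O) ρbar.V} (hW : W.rb = matRes ρbar bb)
    (hE : IsResidualOf E hΔ p W) : IsTresRamified p ρbar := by
  intro ρ heq hdet hord
  classical
  have hp : p.Prime := Fact.out
  set k := ResidueField O
  have hpk : ∀ x : k, (p ^ 1) • x = 0 := fun x => by
    rw [pow_one, nsmul_eq_mul, CharP.cast_eq_zero, zero_mul]
  obtain ⟨bE, hbE⟩ := hE
  refine EC.Rep.isStrictOrdinaryAt_of_lines ρ hdet fun A hA => ?_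
  obtain ⟨L, ⟨e, he⟩, hD, hI⟩ := hord A hA
  have hL : ∀ v ∈ L, e.repr v 1 = 0 := fun v hv => by
    rw [he] at hv
    obtain ⟨c, rfl⟩ := Submodule.mem_span_singleton.mp hv
    simp
  set M := matOf ρ e with hM
  have hu : IsUpperAt A M := by
    refine ⟨fun σ hσ => ?_, fun g hg => ?_⟩ <;> rw [hM, matOf_apply]
    · exact hL _ (hD σ hσ _ (he ▸ Submodule.mem_span_singleton_self _))
    · have := hL _ (hI g hg (e 1))
      rwa [map_sub, Finsupp.sub_apply, Basis.repr_self, Finsupp.single_eq_same, sub_eq_zero] at this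
  have hc : IsCont M := isCont_matOf ρ e
  have hcyc : IsCycDet p M := fun n σ a ha => by
    have := hdet.2 n σ a ha
    rwa [← LinearMap.det_toMatrix e] at this
  -- the kernel of the residual representation
  have hres : ∀ σ, mapM (residue (DualNumber k)) M σ = 1 ↔
      (EC.Rep.residualRep E p hΔ).ρ σ = 1 := by
    intro σ
    set g := (residue (DualNumber k)).comp (algebraMap k (DualNumber k))
    letI := g.toAlgebra
    obtain ⟨E'⟩ := heq
    set ρ' := ρbar.baseChangeAlong g
    let b₀ : Basis (Fin 2) (ResidueField (DualNumber k)) ρ.residual.V :=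
      e.baseChange (ResidueField (DualNumber k))
    let b' : Basis (Fin 2) (ResidueField (DualNumber k)) ρ'.V := b₀.map E'.toLinearEquiv
    rw [show mapM (residue (DualNumber k)) M = matRes ρ' b' from
      ((matRes_eq_of_equiv E' b₀).trans (matRes_residual ρ e)).symm]
    have h1 : matRes ρ' b' σ = 1 ↔ ρ'.ρ σ = 1 :=
      (LinearMap.toMatrixAlgEquiv b').injective.eq_iff' (map_one _)
    have h2 : matRes ρ' (bb.baseChange _) σ = 1 ↔ ρ'.ρ σ = 1 :=
      (LinearMap.toMatrixAlgEquiv _).injective.eq_iff' (map_one _)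
    rw [h1, ← h2, matRes_baseChangeAlong g ρbar bb, ← hW]
    show (W.rb σ).map g = 1 ↔ _
    rw [(Matrix.map_injective g.injective).eq_iff' (Matrix.map_one g (map_zero g) (map_one g))]
    have h3 : W.rb σ = (ZMod.castHom dvd_rfl k).mapMatrix (matRes _ bE σ) :=
      Matrix.ext fun i j => hbE σ i j
    rw [h3]
    show (matRes _ bE σ).map (ZMod.castHom dvd_rfl k) = 1 ↔ _
    rw [(Matrix.map_injective (ZMod.castHom dvd_rfl k).injective).eq_iff'
      (Matrix.map_one _ (map_zero _) (map_one _))]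
    exact (LinearMap.toMatrixAlgEquiv bE).injective.eq_iff' (map_one _)
  -- the two components of the upper entry
  let φ₀ : DualNumber k →+ k := AddMonoidHom.mk' TrivSqZeroExt.fst fun x y => fst_add x y
  let φ₁ : DualNumber k →+ k := AddMonoidHom.mk' TrivSqZeroExt.snd fun x y => snd_add x y
  obtain ⟨V₀, hV₀⟩ := (isTwist_upper hu hcyc hc φ₀ (k := 2)
    (fun v hv => by rw [eq_zero_of_mem_maximalIdeal_sq hv, map_zero]) hpk).exists_hasVal hA hpk
  obtain ⟨V₁, hV₁⟩ := (isTwist_upper hu hcyc hc φ₁ (k := 2)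
    (fun v hv => by rw [eq_zero_of_mem_maximalIdeal_sq hv, map_zero]) hpk).exists_hasVal hA hpk
  have hV0 : V₀ ≠ 0 := by
    intro h0
    subst h0
    obtain ⟨σ, hσ, hσw, hno⟩ := exists_tameKer_forall_unit_ne (W := E) hA hp2 hΔ hpΔ
      (hss p hp hpΔ) fun h => hv (Int.natCast_dvd_natCast.mpr h)
    obtain ⟨hσI, hσχ⟩ := MazurP.mem_tameKer.mp hσ
    have hexp : IsExp p 1 σ 1 := fun μ hμ => by
      rw [MazurP.apply_root_eq_pow_cyclotomicHom (p := p) σ (by simpa using hμ), hσχ, Units.val_one,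
        ZMod.val_one]
    have hdet1 : (M σ).det = 1 := by
      have h := hcyc 1 σ 1 hexp
      rw [pow_one, natCast_dual_eq_zero, Ideal.span_singleton_zero, Ideal.mem_bot,
        sub_eq_zero, Nat.cast_one] at h
      exact h
    have hσA := smul_eq_of_inertia hσI
    have h00 : M σ 0 0 = 1 := by
      have := hu.det_eq hσA
      rwa [hdet1, hu.inertia σ hσI, mul_one, eq_comm] at this
    have hc0 : φ₀ (M σ 0 1) ≠ 0 := by
      intro hb
      refine hσw (MazurP.mem_wildKer.mpr ⟨⟨hσI, hσχ⟩, fun x hx => ?_⟩)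
      have h1 : (EC.Rep.residualRep E p hΔ).ρ σ = 1 := by
        refine (hres σ).mp (Matrix.ext fun i j => ?_)
        rw [mapM_apply]
        fin_cases i <;> fin_cases j
        · simp [h00]
        · exact (residue_dual_eq_zero.mpr hb).trans (by simp)
        · simp [hu.low σ hσA]
        · simp [hu.inertia σ hσI]
      exact congrArg Subtype.val (LinearMap.congr_fun h1
        ⟨x, (Submodule.mem_torsionBy_iff _ _).mpr hx⟩)
    haveI : NeZero ((Monoid.exponent (Multiplicative k) : ℕ) : QBar) :=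
      ⟨Nat.cast_ne_zero.mpr Monoid.exponent_ne_zero_of_finite⟩
    obtain ⟨l, hl⟩ := CommGroup.exists_apply_ne_one_of_hasEnoughRootsOfUnity (Multiplicative k) QBar
      (a := Multiplicative.ofAdd (φ₀ (M σ 0 1))) (by simpa using hc0)
    set ζ := chv l (φ₀ (M σ 0 1))
    have hζ1 : ζ ≠ 1 := fun h => hl (Units.ext h)
    have hζ : IsPrimitiveRoot ζ p := by
      have hpow : ζ ^ p = 1 := chv_pow_eq_one l (by simp)
      have := (orderOf_eq_prime hpow hζ1)
      exact this ▸ IsPrimitiveRoot.orderOf ζ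
    obtain ⟨y, ⟨-, hy⟩, hy1⟩ := hV₀.isPeu l
    refine hno ζ y hζ hy1 (fun h hh => ?_) (hy σ hσI)
    obtain ⟨⟨hhI, -⟩, hfix⟩ := MazurP.mem_wildKer.mp hh
    have h1 := (hres h).mpr (MazurP.residualRep_eq_one_of_forall hΔ hfix)
    have h01 : residue (DualNumber k) (M h 0 1) = 0 := by
      rw [← mapM_apply, h1]
      rfl
    have h0 : φ₀ (M h 0 1) = 0 := residue_dual_eq_zero.mp h01
    rw [hy h hhI]
    simp only [h0, chv_zero, one_mul]
  -- the square of the quotient character
  have hline : ∀ σ : Gal, σ • A = A → ∀ v : ρ.V,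
      ρ.ρ σ v - M σ 1 1 • v ∈ DualNumber k ∙ e 0 := by
    intro σ hσ v
    refine Submodule.mem_span_singleton.mpr
      ⟨e.repr (ρ.ρ σ v - M σ 1 1 • v) 0, ?_⟩
    have h1 : e.repr (ρ.ρ σ v - M σ 1 1 • v) 1 = 0 := by
      have hlin : (e.coord 1 ∘ₗ ρ.ρ σ) = M σ 1 1 • e.coord 1 := e.ext fun j => by
        fin_cases j
        · simpa [hM, matOf_apply] using hu.low σ hσ
        · simp [hM, matOf_apply]
      have := LinearMap.congr_fun hlin v
      simp only [LinearMap.comp_apply, LinearMap.smul_apply, Basis.coord_apply] at this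
      rw [map_sub, map_smul, Finsupp.sub_apply, this, Finsupp.smul_apply, sub_self]
    conv_rhs => rw [← e.sum_repr (ρ.ρ σ v - M σ 1 1 • v), Fin.sum_univ_two, h1, zero_smul,
      add_zero]
  refine ⟨e, fun σ hσ v => by simpa [hu.inertia σ hσ] using hline σ (smul_eq_of_inertia hσ) v,
    fun σ hσ => ⟨he ▸ hD σ hσ _ (he ▸ Submodule.mem_span_singleton_self _), M σ 1 1, ?_,
      hline σ hσ⟩⟩
  set w := M σ 1 1 ^ 2 with hw
  have e0 : V₀ = w.fst * V₀ :=
    (hasVal_quot_sq hu hcyc φ₀ hpk hV₀ hσ).unique hA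
      ((hV₀.map (AddMonoidHom.mulLeft w.fst)).congr fun g _ => (fst_mul _ _).symm)
  have hw0 : w.fst = 1 := mul_right_cancel₀ hV0 (by rw [one_mul]; exact e0.symm)
  have e1 : V₁ = w.fst * V₁ + w.snd * V₀ :=
    (hasVal_quot_sq hu hcyc φ₁ hpk hV₁ hσ).unique hA
      (((hV₁.map (AddMonoidHom.mulLeft w.fst)).add (hV₀.map (AddMonoidHom.mulLeft w.snd)) hA).congr
        fun g _ => by
          show w.fst * (M g 0 1).snd + w.snd * (M g 0 1).fst = (w * M g 0 1).snd
          rw [snd_mul]
          rfl)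
  rw [hw0, one_mul, left_eq_add] at e1
  have hw1 : w.snd = 0 := (mul_eq_zero.mp e1).resolve_right hV0
  rw [← pow_two, ← hw]
  exact TrivSqZeroExt.ext (by rw [hw0, fst_one]) (by rw [hw1, snd_one])


end Fermat.Agent.Extra38

end
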